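import Fermat.Agent.GR.F.Formal

/-!
# GR-F: reduction of Laurent series modulo a valuation subring
-/

set_option autoImplicit false

noncomputable section

open ModularCurve IsLocalRing

namespace Fermat.Agent.GR

section basic

variable {Ω : Type*} [Field Ω] (A : ValuationSubring Ω)

/-- `A((q)) → Ω((q))`. -/
def incl : LaurentSeries A →+* LaurentSeries Ω := coeffMap A.subtype

/-- `A((q)) → k_A((q))`. -/
def red : LaurentSeries A →+* LaurentSeries (ResidueField A) := coeffMap (residue A)

private theorem Red_incl_coeff (a : LaurentSeries A) (n : ℤ) :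
    (incl A a).coeff n = (a.coeff n : Ω) := rfl

private theorem Red_red_coeff (a : LaurentSeries A) (n : ℤ) :
    (red A a).coeff n = residue A (a.coeff n) := rfl

theorem incl_injective : Function.Injective (incl A) := by
  intro a b hab
  ext n
  have h := congrArg (fun f : LaurentSeries Ω => f.coeff n) hab
  simpa only [Red_incl_coeff] using h

theorem isInt_iff {f : LaurentSeries Ω} : IsInt A f ↔ ∃ f' : LaurentSeries A, incl A f' = f := by
  constructor
  · intro h
    refine ⟨{ coeff := fun n => ⟨f.coeff n, h n⟩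
              isPWO_support' := f.isPWO_support.mono ?_ }, ?_⟩
    · intro n hn
      simp only [Function.mem_support, ne_eq] at hn
      intro h0
      apply hn
      exact Subtype.ext h0
    · ext n
      rfl
  · rintro ⟨f', rfl⟩ n
    rw [Red_incl_coeff]
    exact (f'.coeff n).2

theorem cong_incl_iff (a b : LaurentSeries A) :
    Cong A (incl A a) (incl A b) ↔ red A a = red A b := by
  have key : ∀ n : ℤ, ((incl A a).coeff n - (incl A b).coeff n ∈ A.nonunits) ↔
      (red A a).coeff n = (red A b).coeff n := by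
    intro n
    rw [Red_incl_coeff, Red_incl_coeff, Red_red_coeff, Red_red_coeff, ← sub_eq_zero, ← map_sub,
      residue_eq_zero_iff, ← ValuationSubring.coe_mem_nonunits_iff]
    rfl
  constructor
  · intro h
    ext n
    exact (key n).mp (h n)
  · intro h n
    exact (key n).mpr (by rw [h])

theorem isPrim_incl_iff (a : LaurentSeries A) : IsPrim A (incl A a) ↔ red A a ≠ 0 := by
  have key : ∀ n : ℤ, ((incl A a).coeff n ∉ A.nonunits) ↔ (red A a).coeff n ≠ 0 := by
    intro n
    rw [Red_incl_coeff, Red_red_coeff, ne_eq, residue_eq_zero_iff,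
      ValuationSubring.coe_mem_nonunits_iff]
  constructor
  · rintro ⟨_, n, hn⟩ h0
    exact (key n).mp hn (by rw [h0]; rfl)
  · intro h
    refine ⟨(isInt_iff A).mpr ⟨a, rfl⟩, ?_⟩
    by_contra hcon
    push Not at hcon
    apply h
    ext n
    by_contra hn
    exact (key n).mpr hn (hcon n)

theorem isPrim_iff {f : LaurentSeries Ω} :
    IsPrim A f ↔ ∃ f' : LaurentSeries A, incl A f' = f ∧ red A f' ≠ 0 := by
  constructor
  · intro h
    obtain ⟨f', rfl⟩ := (isInt_iff A).mp h.1
    exact ⟨f', rfl, (isPrim_incl_iff A f').mp h⟩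
  · rintro ⟨f', rfl, h⟩
    exact (isPrim_incl_iff A f').mpr h

theorem charP_residueField {ℓ : ℕ} [Fact ℓ.Prime] (hA : A.LiesOverPrime ℓ) :
    CharP (ResidueField A) ℓ := by
  have h0 : ((ℓ : ℕ) : ResidueField A) = 0 := by
    have h1 : ((ℓ : A) : Ω) ∈ A.nonunits := by
      have : ((ℓ : A) : Ω) = (ℓ : Ω) := by simp
      rw [this]
      exact hA
    rw [ValuationSubring.coe_mem_nonunits_iff, ← residue_eq_zero_iff, map_natCast] at h1
    exact h1
  exact (CharP.charP_iff_prime_eq_zero (Fact.out : ℓ.Prime)).mpr h0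

/-- a root of unity of order `ℓ` is a unit of `A` which reduces to `1` when the residue
characteristic is `ℓ`. -/
theorem exists_unit_of_pow_eq_one {ℓ : ℕ} [Fact ℓ.Prime] (hA : A.LiesOverPrime ℓ) (ζ : Ωˣ)
    (hζ : ζ ^ ℓ = 1) :
    ∃ z : (↥A)ˣ, Units.map (A.subtype : ↥A →* Ω) z = ζ ∧
      Units.map (residue A : ↥A →* ResidueField A) z = 1 := by
  have hℓ : ℓ ≠ 0 := (Fact.out : ℓ.Prime).ne_zero
  have hmem : ∀ ξ : Ωˣ, ξ ^ ℓ = 1 → (ξ : Ω) ∈ A := by
    intro ξ hξ
    rw [← A.valuation_le_one_iff]
    have h1 : A.valuation (ξ : Ω) ^ ℓ = 1 := by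
      rw [← map_pow, ← Units.val_pow_eq_pow_val, hξ, Units.val_one, map_one]
    exact le_of_eq ((pow_eq_one_iff.mp h1).resolve_right hℓ)
  have hζ' : ζ⁻¹ ^ ℓ = 1 := by rw [inv_pow, hζ, inv_one]
  let z : (↥A)ˣ :=
    { val := ⟨ζ, hmem ζ hζ⟩
      inv := ⟨(ζ⁻¹ : Ωˣ), hmem ζ⁻¹ hζ'⟩
      val_inv := by
        apply Subtype.ext
        simp
      inv_val := by
        apply Subtype.ext
        simp }
  refine ⟨z, ?_, ?_⟩
  · apply Units.ext
    rfl
  · apply Units.ext
    have := charP_residueField A hA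
    have hz : z ^ ℓ = 1 := by
      apply Units.ext
      apply Subtype.ext
      have := congrArg (fun x : Ωˣ => (x : Ω)) hζ
      simpa using this
    have h1 : (residue A (z : A)) ^ ℓ = 1 := by
      rw [← map_pow, ← Units.val_pow_eq_pow_val, hz, Units.val_one, map_one]
    have h2 : (residue A (z : A) - 1) ^ ℓ = 0 := by
      rw [sub_pow_char, h1, one_pow, sub_self]
    have h3 := sub_eq_zero.mp (pow_eq_zero_iff hℓ |>.mp h2)
    simpa using h3

end basic

end Fermat.Agent.GR
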