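import Fermat.Agent.GR.F.Formal

/-!
# GR-F: Frobenius on Laurent series in characteristic `ℓ`
-/

set_option autoImplicit false

noncomputable section

open ModularCurve

namespace Fermat.Agent.GR

variable {k : Type*} [CommRing k] (ℓ : ℕ) [Fact ℓ.Prime] [CharP k ℓ]

theorem charP_laurentSeries : CharP (LaurentSeries k) ℓ :=
  charP_of_injective_ringHom (f := (HahnSeries.C : k →+* LaurentSeries k))
    HahnSeries.C_injective ℓ

/-- the power series case of `pow_char_eq_qExpand`. -/
private theorem pow_char_coe (F : PowerSeries k) :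
    ((F : LaurentSeries k)) ^ ℓ = qExpand k ℓ (coeffMap (frobenius k ℓ) (F : LaurentSeries k)) := by
  have hℓ : ℓ ≠ 0 := (Fact.out : ℓ.Prime).ne_zero
  have h : (PowerSeries.expand ℓ hℓ F).map (frobenius k ℓ) = F ^ ℓ :=
    MvPowerSeries.map_frobenius_expand (σ := Unit) ℓ hℓ (f := F)
  rw [← PowerSeries.coe_pow, ← h]
  ext m
  rw [PowerSeries.coeff_coe]
  by_cases hd : (ℓ : ℤ) ∣ m
  · obtain ⟨c, rfl⟩ := hd
    rw [qExpand_coeff_mul, coeffMap_coeff, PowerSeries.coeff_coe]
    have hpos : (0 : ℤ) < ℓ := by exact_mod_cast Nat.pos_of_ne_zero hℓ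
    by_cases hc : c < 0
    · have : (ℓ : ℤ) * c < 0 := mul_neg_of_pos_of_neg hpos hc
      simp [hc, this]
    · have hc' : 0 ≤ c := not_lt.mp hc
      have : ¬ (ℓ : ℤ) * c < 0 := not_lt.mpr (mul_nonneg hpos.le hc')
      rw [if_neg hc, if_neg this, PowerSeries.coeff_map, Int.natAbs_mul, Int.natAbs_natCast,
        PowerSeries.coeff_expand_mul]
  · rw [qExpand_coeff_of_not_dvd _ _ hd]
    split_ifs with hm
    · rfl
    · rw [PowerSeries.coeff_map, PowerSeries.coeff_expand_of_not_dvd, map_zero]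
      intro hdvd
      apply hd
      have : (m.natAbs : ℤ) = m := Int.natAbs_of_nonneg (not_lt.mp hm)
      rw [← this]
      exact_mod_cast hdvd

/-- `f(q)^ℓ = f^φ(q^ℓ)` in characteristic `ℓ`. -/
theorem pow_char_eq_qExpand (f : LaurentSeries k) :
    f ^ ℓ = qExpand k ℓ (coeffMap (frobenius k ℓ) f) := by
  conv_lhs => rw [← LaurentSeries.single_order_mul_powerSeriesPart f]
  conv_rhs => rw [← LaurentSeries.single_order_mul_powerSeriesPart f]
  rw [mul_pow, map_mul, map_mul, pow_char_coe, coeffMap_single, qExpand_single,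
    HahnSeries.single_pow, map_one, one_pow, nsmul_eq_mul]

/-- in characteristic `ℓ` (where `ζ = 1`) the norm operator is the coefficientwise Frobenius. -/
theorem normT_one_char (f : LaurentSeries k) :
    normT ℓ (1 : kˣ) f = coeffMap (frobenius k ℓ) f := by
  rw [normT_one_eq, pow_char_eq_qExpand, Uop_qExpand]

end Fermat.Agent.GR
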