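import Fermat.Agent.GR.F.Formal

/-!
# GR-F: multiplicativity of `normT`, `heckeMulT` (coefficients in a domain, `ζ` primitive)
-/

set_option autoImplicit false

noncomputable section

open ModularCurve

namespace Fermat.Agent.GR

section domain

variable {Λ : Type*} [CommRing Λ] [IsDomain Λ]

/-- the product of the conjugates is invariant under `t ↦ ζ t`. -/
private theorem FormalNorm_scaleHom_prod (ℓ : ℕ) [NeZero ℓ] (ζ : Λˣ) (hζ : ζ ^ ℓ = 1)
    (u : LaurentSeries Λ) :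
    scaleHom ζ (∏ j ∈ Finset.range ℓ, scaleHom (ζ ^ j) u)
      = ∏ j ∈ Finset.range ℓ, scaleHom (ζ ^ j) u := by
  obtain ⟨k, rfl⟩ := Nat.exists_eq_succ_of_ne_zero (NeZero.ne ℓ)
  rw [map_prod]
  have h1 : ∀ j ∈ Finset.range (k + 1), scaleHom ζ (scaleHom (ζ ^ j) u)
      = scaleHom (ζ ^ (j + 1)) u := by
    intro j _
    rw [scaleHom_scaleHom, pow_succ']
  rw [Finset.prod_congr rfl h1, Finset.prod_range_succ,
    Finset.prod_range_succ' (fun j => scaleHom (ζ ^ j) u) k, hζ, pow_zero]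

/-- the product of the conjugates is a series in `t^ℓ`. -/
theorem coeff_prod_scaleHom_of_not_dvd (ℓ : ℕ) [NeZero ℓ] (ζ : Λˣ) (hζ : IsPrimitiveRoot ζ ℓ)
    (u : LaurentSeries Λ) {n : ℤ} (hn : ¬ (ℓ : ℤ) ∣ n) :
    (∏ j ∈ Finset.range ℓ, scaleHom (ζ ^ j) u).coeff n = 0 := by
  have h := congrArg (fun f : LaurentSeries Λ => f.coeff n)
    (FormalNorm_scaleHom_prod ℓ ζ hζ.pow_eq_one u)
  simp only [scaleHom_coeff] at h
  set P := (∏ j ∈ Finset.range ℓ, scaleHom (ζ ^ j) u).coeff n with hP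
  have h2 : (((ζ ^ n : Λˣ) : Λ) - 1) * P = 0 := by
    rw [sub_mul, h, one_mul, sub_self]
  rcases mul_eq_zero.mp h2 with h3 | h3
  · exfalso
    apply hn
    rw [← hζ.zpow_eq_one_iff_dvd]
    apply Units.ext
    rw [Units.val_one]
    exact sub_eq_zero.mp h3
  · exact h3

theorem qExpand_normT (ℓ : ℕ) [NeZero ℓ] (ζ : Λˣ) (hζ : IsPrimitiveRoot ζ ℓ)
    (u : LaurentSeries Λ) :
    qExpand Λ ℓ (normT ℓ ζ u) = ∏ j ∈ Finset.range ℓ, scaleHom (ζ ^ j) u :=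
  qExpand_Uop ℓ _ (fun _ hn => coeff_prod_scaleHom_of_not_dvd ℓ ζ hζ u hn)

theorem normT_mul (ℓ : ℕ) [NeZero ℓ] (ζ : Λˣ) (hζ : IsPrimitiveRoot ζ ℓ)
    (u v : LaurentSeries Λ) : normT ℓ ζ (u * v) = normT ℓ ζ u * normT ℓ ζ v := by
  apply qExpand_injective (R := Λ) ℓ
  rw [map_mul, qExpand_normT ℓ ζ hζ, qExpand_normT ℓ ζ hζ, qExpand_normT ℓ ζ hζ,
    ← Finset.prod_mul_distrib]
  exact Finset.prod_congr rfl (fun j _ => map_mul _ _ _)

theorem heckeMulT_mul (ℓ : ℕ) [NeZero ℓ] (ζ : Λˣ) (hζ : IsPrimitiveRoot ζ ℓ)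
    (u v : LaurentSeries Λ) : heckeMulT ℓ ζ (u * v) = heckeMulT ℓ ζ u * heckeMulT ℓ ζ v := by
  unfold heckeMulT
  rw [map_mul, normT_mul ℓ ζ hζ]
  ring

/-- independence of the choice of the primitive root of unity. -/
theorem normT_eq_of_isPrimitiveRoot (ℓ : ℕ) [NeZero ℓ] (ζ ζ' : Λˣ) (hζ : IsPrimitiveRoot ζ ℓ)
    (hζ' : IsPrimitiveRoot ζ' ℓ) (u : LaurentSeries Λ) : normT ℓ ζ u = normT ℓ ζ' u := by
  classical
  unfold normT
  congr 1
  have key : ∀ ξ : Λˣ, IsPrimitiveRoot ξ ℓ →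
      ∏ j ∈ Finset.range ℓ, scaleHom (ξ ^ j) u
        = ∏ x ∈ (Finset.range ℓ).image (fun j => ξ ^ j), scaleHom x u := by
    intro ξ hξ
    rw [Finset.prod_image]
    intro i hi j hj hij
    exact hξ.pow_inj (Finset.mem_range.mp hi) (Finset.mem_range.mp hj) hij
  have hcard : ∀ ξ : Λˣ, IsPrimitiveRoot ξ ℓ →
      ((Finset.range ℓ).image (fun j => ξ ^ j)).card = ℓ := by
    intro ξ hξ
    rw [Finset.card_image_of_injOn, Finset.card_range]
    intro i hi j hj hij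
    exact hξ.pow_inj (Finset.mem_range.mp hi) (Finset.mem_range.mp hj) hij
  rw [key ζ hζ, key ζ' hζ']
  congr 1
  symm
  apply Finset.eq_of_subset_of_card_le
  · intro x hx
    obtain ⟨j, _, rfl⟩ := Finset.mem_image.mp hx
    have hmem : ζ' ^ j ∈ rootsOfUnity ℓ Λ := by
      rw [mem_rootsOfUnity, ← pow_mul, mul_comm, pow_mul, hζ'.pow_eq_one, one_pow]
    obtain ⟨i, hi, hi'⟩ := hζ.eq_pow_of_mem_rootsOfUnity hmem
    exact Finset.mem_image.mpr ⟨i, Finset.mem_range.mpr hi, hi'⟩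
  · rw [hcard ζ hζ, hcard ζ' hζ']

end domain

section field

variable {K : Type*} [Field K]

private theorem FormalNorm_scaleHom_ne_zero (c : Kˣ) {u : LaurentSeries K} (hu : u ≠ 0) :
    scaleHom c u ≠ 0 := by
  intro h
  apply hu
  have := scaleHom_scaleHom c⁻¹ c u
  rw [h, map_zero, inv_mul_cancel, scaleHom_one] at this
  exact this.symm

theorem heckeMulT_ne_zero (ℓ : ℕ) [NeZero ℓ] (ζ : Kˣ) (hζ : IsPrimitiveRoot ζ ℓ)
    {u : LaurentSeries K} (hu : u ≠ 0) : heckeMulT ℓ ζ u ≠ 0 := by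
  unfold heckeMulT
  apply mul_ne_zero
  · intro h
    apply hu
    apply qExpand_injective (R := K) ℓ
    rw [h, map_zero]
  · intro h
    have h2 := qExpand_normT ℓ ζ hζ u
    rw [h, map_zero] at h2
    have h3 : ∏ j ∈ Finset.range ℓ, scaleHom (ζ ^ j) u ≠ 0 :=
      Finset.prod_ne_zero_iff.mpr (fun j _ => FormalNorm_scaleHom_ne_zero _ hu)
    exact h3 h2.symm

theorem heckeMulT_div (ℓ : ℕ) [NeZero ℓ] (ζ : Kˣ) (hζ : IsPrimitiveRoot ζ ℓ)
    (u v : LaurentSeries K) : heckeMulT ℓ ζ (u / v) = heckeMulT ℓ ζ u / heckeMulT ℓ ζ v := by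
  have h0 : heckeMulT ℓ ζ (0 : LaurentSeries K) = 0 := by
    unfold heckeMulT
    rw [map_zero, zero_mul]
  by_cases hv : v = 0
  · subst hv
    rw [div_zero, h0, div_zero]
  · rw [eq_div_iff (heckeMulT_ne_zero ℓ ζ hζ hv), ← heckeMulT_mul ℓ ζ hζ, div_mul_cancel₀ _ hv]

end field

end Fermat.Agent.GR
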