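import Mathlib

/-!
# GR: a valuation subring of `ℚ̄` cuts out a principal ideal ring on every number field
-/

set_option autoImplicit false

noncomputable section

namespace Fermat.Agent.GR

/-- A valuation subring of a finite extension of `ℚ` is a principal ideal ring
(it is the field itself or a discrete valuation ring). -/
theorem isPrincipalIdealRing_valuationSubring (L : Type*) [Field L] [NumberField L]
    (R : ValuationSubring L) : IsPrincipalIdealRing R := by
  classical
  have hO : ∀ x : NumberField.RingOfIntegers L, (x : L) ∈ R := by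
    intro x
    have hx : IsIntegral ℤ (x : L) := NumberField.RingOfIntegers.isIntegral_coe x
    have h2 : IsIntegral R (x : L) := hx.tower_top
    obtain ⟨y, hy⟩ := IsIntegrallyClosed.isIntegral_iff.mp h2
    rw [← hy]
    exact y.2
  let j : NumberField.RingOfIntegers L →+* R :=
    { toFun := fun x => ⟨(x : L), hO x⟩
      map_one' := rfl
      map_mul' := fun _ _ => rfl
      map_zero' := rfl
      map_add' := fun _ _ => rfl }
  have hjcoe : ∀ x, ((j x : R) : L) = (x : L) := fun _ => rfl
  have hjinj : Function.Injective j := by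
    intro a b hab
    have := congrArg (Subtype.val) hab
    exact NumberField.RingOfIntegers.ext this
  letI : Algebra (NumberField.RingOfIntegers L) R := j.toAlgebra
  let 𝔭 : Ideal (NumberField.RingOfIntegers L) := (IsLocalRing.maximalIdeal R).comap j
  haveI h𝔭 : 𝔭.IsPrime := Ideal.comap_isPrime _ _
  have hunit : ∀ s : NumberField.RingOfIntegers L, s ∉ 𝔭 → IsUnit (j s) := by
    intro s hs
    by_contra h
    exact hs ((IsLocalRing.mem_maximalIdeal _).2 h)
  -- every element of `R` is a fraction with denominator outside `𝔭`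
  have hsurj : ∀ x : R, ∃ (a s : NumberField.RingOfIntegers L), s ∉ 𝔭 ∧ x * j s = j a := by
    intro x
    obtain ⟨a, b, hb, hab⟩ := IsFractionRing.div_surjective (A := NumberField.RingOfIntegers L)
      (x : L)
    have hb0 : b ≠ 0 := nonZeroDivisors.ne_zero hb
    have hbL : (b : L) ≠ 0 := by
      intro h
      exact hb0 (NumberField.RingOfIntegers.ext h)
    have hxb : (x : L) * (b : L) = (a : L) := by
      rw [← hab]
      exact div_mul_cancel₀ _ hbL
    by_cases hp : 𝔭 = ⊥
    · refine ⟨a, b, ?_, Subtype.ext hxb⟩
      rw [hp]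
      simpa using hb0
    · haveI : IsDiscreteValuationRing (Localization.AtPrime 𝔭) :=
        IsLocalization.AtPrime.isDiscreteValuationRing_of_dedekind_domain _ hp _
      have key : ∀ u v : NumberField.RingOfIntegers L,
          algebraMap _ (Localization.AtPrime 𝔭) u ∣ algebraMap _ (Localization.AtPrime 𝔭) v →
          ∃ c s : NumberField.RingOfIntegers L, s ∉ 𝔭 ∧ v * s = u * c := by
        rintro u v ⟨z, hz⟩
        obtain ⟨⟨c, s⟩, hcs⟩ := IsLocalization.surj 𝔭.primeCompl z
        refine ⟨c, s, s.2, ?_⟩
        apply IsLocalization.injective (Localization.AtPrime 𝔭) 𝔭.primeCompl_le_nonZeroDivisors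
        rw [map_mul, map_mul, hz, mul_assoc, hcs]
      rcases ValuationRing.dvd_total (algebraMap _ (Localization.AtPrime 𝔭) a)
        (algebraMap _ (Localization.AtPrime 𝔭) b) with h | h
      · obtain ⟨c, s, hs, hcs⟩ := key a b h
        -- b * s = a * c, so x * c = s
        have h1 : (x : L) * (c : L) = (s : L) := by
          have h2 : (b : L) * (s : L) = (a : L) * (c : L) := by
            have := congrArg (fun t : NumberField.RingOfIntegers L => (t : L)) hcs
            simpa using this
          rw [← hxb] at h2
          have h3 : (b : L) * (s : L) = (b : L) * ((x : L) * (c : L)) := by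
            rw [h2]; ring
          exact (mul_left_cancel₀ hbL h3).symm
        have h1' : x * j c = j s := Subtype.ext h1
        have hc : c ∉ 𝔭 := by
          intro hc
          have : x * j c ∈ IsLocalRing.maximalIdeal R := Ideal.mul_mem_left _ _ hc
          rw [h1'] at this
          exact hs this
        exact ⟨s, c, hc, h1'⟩
      · obtain ⟨c, s, hs, hcs⟩ := key b a h
        -- a * s = b * c so x * s = c
        refine ⟨c, s, hs, Subtype.ext ?_⟩
        have h2 : (a : L) * (s : L) = (b : L) * (c : L) := by
          have := congrArg (fun t : NumberField.RingOfIntegers L => (t : L)) hcs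
          simpa using this
        rw [← hxb] at h2
        have h3 : (b : L) * ((x : L) * (s : L)) = (b : L) * (c : L) := by
          rw [← h2]; ring
        exact mul_left_cancel₀ hbL h3
  have hloc : IsLocalization.AtPrime R 𝔭 :=
    { map_units := fun s => hunit s s.2
      surj := fun x => by
        obtain ⟨a, s, hs, h⟩ := hsurj x
        exact ⟨(a, ⟨s, hs⟩), h⟩
      exists_of_eq := fun {a b} h => ⟨1, by rw [hjinj h]⟩ }
  have hN : IsNoetherianRing R :=
    IsLocalization.isNoetherianRing 𝔭.primeCompl R inferInstance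
  exact ((IsBezout.TFAE (R := R)).out 0 1).mp hN

/-- The trace of a valuation subring of an algebraic closure of `ℚ` on a number field. -/
theorem isPrincipalIdealRing_comap {Ω : Type*} [Field Ω] [Algebra ℚ Ω] (A : ValuationSubring Ω)
    (L : IntermediateField ℚ Ω) [FiniteDimensional ℚ L] :
    IsPrincipalIdealRing (A.comap (algebraMap L Ω)) := by
  have h0 : CharZero Ω := algebraRat.charZero Ω
  have : NumberField L :=
    { to_charZero := inferInstance
      to_finiteDimensional := by
        convert ‹FiniteDimensional ℚ L›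
        exact Subsingleton.elim _ _ }
  exact isPrincipalIdealRing_valuationSubring L _

/-- Consequence: a nonempty family of elements of a number field `L ⊆ Ω`, not all zero, lying in
`A`, has a member of minimal valuation. -/
theorem exists_dvd_all {Ω : Type*} [Field Ω] [Algebra ℚ Ω] (A : ValuationSubring Ω)
    (L : IntermediateField ℚ Ω) [FiniteDimensional ℚ L] {ι : Type*} (c : ι → Ω)
    (hL : ∀ i, c i ∈ L) (hA : ∀ i, c i ∈ A) (h0 : ∃ i, c i ≠ 0) :
    ∃ i₀, c i₀ ≠ 0 ∧ ∀ i, c i / c i₀ ∈ A := by
  classical
  haveI := isPrincipalIdealRing_comap A L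
  let R' := A.comap (algebraMap L Ω)
  let c' : ι → R' := fun i => ⟨⟨c i, hL i⟩, hA i⟩
  have hc' : ∀ i, algebraMap L Ω ((c' i : R') : L) = c i := fun _ => rfl
  obtain ⟨t, ht⟩ := (IsPrincipalIdealRing.principal (Ideal.span (Set.range c'))).principal
  have ht' : Ideal.span (Set.range c') = Ideal.span {t} := ht
  have hm : ∀ i, ∃ m : R', c' i = t * m := by
    intro i
    have : c' i ∈ Ideal.span {t} := ht' ▸ Ideal.subset_span ⟨i, rfl⟩
    exact Ideal.mem_span_singleton'.1 this |>.imp fun m hm => by rw [← hm, mul_comm]
  choose m hm using hm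
  have ht0 : t ≠ 0 := by
    rintro rfl
    obtain ⟨i, hi⟩ := h0
    apply hi
    have := hm i
    rw [zero_mul] at this
    rw [← hc' i, this]
    simp
  have hex : ∃ i₀, IsUnit (m i₀) := by
    by_contra hne
    push_neg at hne
    have hle : Ideal.span (Set.range c') ≤ Ideal.span {t} * IsLocalRing.maximalIdeal R' := by
      rw [Ideal.span_le]
      rintro _ ⟨i, rfl⟩
      rw [hm i]
      exact Ideal.mul_mem_mul (Ideal.mem_span_singleton_self t)
        ((IsLocalRing.mem_maximalIdeal _).2 (hne i))
    have htm : t ∈ Ideal.span {t} * IsLocalRing.maximalIdeal R' :=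
      hle (ht' ▸ Ideal.mem_span_singleton_self t)
    obtain ⟨z, hz, hzt⟩ := Ideal.mem_span_singleton_mul.1 htm
    have hz1 : z = 1 := by
      have : t * z = t * 1 := by rw [hzt, mul_one]
      exact mul_left_cancel₀ ht0 this
    rw [hz1] at hz
    exact (IsLocalRing.mem_maximalIdeal _).1 hz isUnit_one
  obtain ⟨i₀, u, hu⟩ := hex
  have hci₀ : c' i₀ ≠ 0 := by
    rw [hm i₀]
    exact mul_ne_zero ht0 (hu ▸ u.ne_zero)
  have hci₀' : c i₀ ≠ 0 := by
    intro h
    apply hci₀
    apply Subtype.ext
    apply Subtype.ext
    exact h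
  refine ⟨i₀, hci₀', fun i => ?_⟩
  have h1 : c' i = c' i₀ * (↑u⁻¹ * m i) := by
    rw [hm i, hm i₀, ← hu]
    have : (u : R') * ↑u⁻¹ = 1 := u.mul_inv
    calc t * m i = t * ((u : R') * ↑u⁻¹) * m i := by rw [this, mul_one]
      _ = t * ↑u * (↑u⁻¹ * m i) := by ring
  have h2 : c i = c i₀ * algebraMap L Ω (((↑u⁻¹ * m i : R')) : L) := by
    have := congrArg (fun r : R' => algebraMap L Ω (r : L)) h1
    simpa using this
  rw [h2, mul_div_cancel_left₀ _ hci₀']
  exact (↑u⁻¹ * m i : R').2

end Fermat.Agent.GR
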