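import Fermat.Agent.GR.F.Kummer
import Fermat.Agent.GR.F.ValNF
import Fermat.Prelude.Thm_ModularCurve_coeffMap_qExpand

/-!
# GR-F: Gauss normalisation of elements of the function field
-/

set_option autoImplicit false

noncomputable section

open ModularCurve

namespace Fermat.Agent.GR

variable {Ω : Type*} [Field Ω] [Algebra ℚ Ω] [Algebra.IsAlgebraic ℚ Ω] (A : ValuationSubring Ω)

/-- coefficients in a number field, with bounded denominators with respect to `A`. -/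
def IsTame (r : LaurentSeries Ω) : Prop :=
  (∃ L : IntermediateField ℚ Ω, FiniteDimensional ℚ L ∧ ∀ n : ℤ, r.coeff n ∈ L) ∧
    ∃ c : Ω, c ≠ 0 ∧ IsInt A (HahnSeries.C c * r)

omit [Algebra ℚ Ω] [Algebra.IsAlgebraic ℚ Ω] in
theorem normalize_coeff_C_mul (c : Ω) (r : LaurentSeries Ω) (n : ℤ) :
    (HahnSeries.C c * r).coeff n = c * r.coeff n := by
  rw [HahnSeries.C_mul_eq_smul, HahnSeries.coeff_smul, smul_eq_mul]

omit [Algebra ℚ Ω] [Algebra.IsAlgebraic ℚ Ω] in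
theorem normalize_coeff_mul_mem {S : Type*} [SetLike S Ω] [SubsemiringClass S Ω] (s : S)
    {f g : LaurentSeries Ω} (hf : ∀ n, f.coeff n ∈ s) (hg : ∀ n, g.coeff n ∈ s) (n : ℤ) :
    (f * g).coeff n ∈ s := by
  rw [HahnSeries.coeff_mul]
  exact sum_mem fun ij _ => mul_mem (hf _) (hg _)

omit [Algebra ℚ Ω] [Algebra.IsAlgebraic ℚ Ω] in
theorem normalize_coeff_C_mem {S : Type*} [SetLike S Ω] [SubsemiringClass S Ω] (s : S)
    {c : Ω} (hc : c ∈ s) (n : ℤ) : (HahnSeries.C c : LaurentSeries Ω).coeff n ∈ s := by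
  rw [HahnSeries.C_apply, HahnSeries.coeff_single]
  split_ifs
  · exact hc
  · exact zero_mem s

theorem normalize_finiteDimensional_adjoin (c : Ω) : FiniteDimensional ℚ (IntermediateField.adjoin ℚ {c}) :=
  IntermediateField.adjoin.finiteDimensional (Algebra.IsAlgebraic.isAlgebraic c).isIntegral

theorem isTame_C (c : Ω) : IsTame A (HahnSeries.C c : LaurentSeries Ω) := by
  refine ⟨⟨IntermediateField.adjoin ℚ {c}, normalize_finiteDimensional_adjoin c, fun n =>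
    normalize_coeff_C_mem _ (IntermediateField.mem_adjoin_simple_self ℚ c) n⟩, ?_⟩
  by_cases hc : c = 0
  · refine ⟨1, one_ne_zero, fun n => ?_⟩
    rw [hc, map_zero, mul_zero]
    exact zero_mem A
  · refine ⟨c⁻¹, inv_ne_zero hc, fun n => ?_⟩
    rw [← map_mul, inv_mul_cancel₀ hc]
    exact normalize_coeff_C_mem A (one_mem A) n

theorem isTame_qExpand_jqModC (d : ℕ) [NeZero d] : IsTame A (qExpand Ω d (jqModC Ω)) := by
  have h : qExpand Ω d (jqModC Ω) =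
      coeffMap (Int.castRingHom Ω) (qExpand ℤ d (jqModC ℤ)) := by
    rw [coeffMap_qExpand, coeffMap_jqModC]
  refine ⟨⟨⊥, inferInstance, fun n => ?_⟩, 1, one_ne_zero, fun n => ?_⟩
  · rw [h, coeffMap_coeff]
    exact intCast_mem _ _
  · rw [map_one, one_mul, h, coeffMap_coeff]
    exact intCast_mem _ _

omit [Algebra.IsAlgebraic ℚ Ω] in
theorem IsTame.exists_mem {r : LaurentSeries Ω} (hr : IsTame A r) :
    ∃ c ∈ A, c ≠ 0 ∧ IsInt A (HahnSeries.C c * r) := by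
  obtain ⟨-, c, hc0, hc⟩ := hr
  by_cases hcA : c ∈ A
  · exact ⟨c, hcA, hc0, hc⟩
  · have hinv : c⁻¹ ∈ A := (A.mem_or_inv_mem c).resolve_left hcA
    refine ⟨1, one_mem A, one_ne_zero, fun n => ?_⟩
    have h1 := hc n
    rw [normalize_coeff_C_mul] at h1
    rw [map_one, one_mul]
    have : r.coeff n = c⁻¹ * (c * r.coeff n) := by
      rw [inv_mul_cancel_left₀ hc0]
    rw [this]
    exact mul_mem hinv h1

theorem IsTame.add {r s : LaurentSeries Ω} (hr : IsTame A r) (hs : IsTame A s) :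
    IsTame A (r + s) := by
  obtain ⟨c₁, hc₁A, hc₁0, hc₁⟩ := hr.exists_mem
  obtain ⟨c₂, hc₂A, hc₂0, hc₂⟩ := hs.exists_mem
  obtain ⟨⟨L₁, hL₁, hr₁⟩, -⟩ := hr
  obtain ⟨⟨L₂, hL₂, hs₂⟩, -⟩ := hs
  refine ⟨⟨L₁ ⊔ L₂, IntermediateField.finiteDimensional_sup L₁ L₂, fun n => ?_⟩,
    c₁ * c₂, mul_ne_zero hc₁0 hc₂0, fun n => ?_⟩
  · rw [HahnSeries.coeff_add]
    exact add_mem ((le_sup_left : L₁ ≤ L₁ ⊔ L₂) (hr₁ n)) ((le_sup_right : L₂ ≤ L₁ ⊔ L₂) (hs₂ n))
  · have h1 := hc₁ n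
    have h2 := hc₂ n
    rw [normalize_coeff_C_mul] at h1 h2
    rw [normalize_coeff_C_mul, HahnSeries.coeff_add]
    have : c₁ * c₂ * (r.coeff n + s.coeff n) =
        c₂ * (c₁ * r.coeff n) + c₁ * (c₂ * s.coeff n) := by ring
    rw [this]
    exact add_mem (mul_mem hc₂A h1) (mul_mem hc₁A h2)

theorem IsTame.mul {r s : LaurentSeries Ω} (hr : IsTame A r) (hs : IsTame A s) :
    IsTame A (r * s) := by
  obtain ⟨⟨L₁, hL₁, hr₁⟩, c₁, hc₁0, hc₁⟩ := hr
  obtain ⟨⟨L₂, hL₂, hs₂⟩, c₂, hc₂0, hc₂⟩ := hs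
  refine ⟨⟨L₁ ⊔ L₂, IntermediateField.finiteDimensional_sup L₁ L₂, fun n => ?_⟩,
    c₁ * c₂, mul_ne_zero hc₁0 hc₂0, fun n => ?_⟩
  · exact normalize_coeff_mul_mem (L₁ ⊔ L₂)
      (fun n => (le_sup_left : L₁ ≤ L₁ ⊔ L₂) (hr₁ n))
      (fun n => (le_sup_right : L₂ ≤ L₁ ⊔ L₂) (hs₂ n)) n
  · have : HahnSeries.C (c₁ * c₂) * (r * s) = (HahnSeries.C c₁ * r) * (HahnSeries.C c₂ * s) := by
      rw [map_mul]; ring
    rw [this]
    exact normalize_coeff_mul_mem A hc₁ hc₂ n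

theorem isTame_of_mem_adjoin (N : ℕ) {r : LaurentSeries Ω}
    (hr : r ∈ Algebra.adjoin Ω (divisorExpansionsC Ω N)) : IsTame A r := by
  induction hr using Algebra.adjoin_induction with
  | mem x hx =>
    obtain ⟨d, hne, -, rfl⟩ := hx
    exact isTame_qExpand_jqModC A d
  | algebraMap c =>
    rw [algebraMap_laurentSeries_eq_single]
    exact isTame_C A c
  | add x y _ _ hx hy => exact hx.add A hy
  | mul x y _ _ hx hy => exact hx.mul A hy

theorem exists_isPrim_of_isTame {r : LaurentSeries Ω} (hr : IsTame A r) (h0 : r ≠ 0) :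
    ∃ c : Ω, c ≠ 0 ∧ IsPrim A (HahnSeries.C c * r) := by
  obtain ⟨⟨L, hL, hrL⟩, c, hc0, hc⟩ := hr
  have hfd := normalize_finiteDimensional_adjoin c
  have hfd' : FiniteDimensional ℚ ↥(L ⊔ IntermediateField.adjoin ℚ {c}) :=
    IntermediateField.finiteDimensional_sup L _
  obtain ⟨i₁, hi₁⟩ : ∃ i, r.coeff i ≠ 0 := by
    by_contra hcon
    exact h0 (HahnSeries.ext (funext fun i => by
      by_contra hi
      exact hcon ⟨i, hi⟩))
  obtain ⟨i₀, hi₀, hall⟩ := exists_dvd_all A (L ⊔ IntermediateField.adjoin ℚ {c})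
    (fun i : ℤ => c * r.coeff i)
    (fun i => mul_mem
      ((le_sup_right : _ ≤ L ⊔ IntermediateField.adjoin ℚ {c})
        (IntermediateField.mem_adjoin_simple_self ℚ c))
      ((le_sup_left : L ≤ L ⊔ IntermediateField.adjoin ℚ {c}) (hrL i)))
    (fun i => by
      have := hc i
      rwa [normalize_coeff_C_mul] at this)
    ⟨i₁, mul_ne_zero hc0 hi₁⟩
  have hr0 : r.coeff i₀ ≠ 0 := right_ne_zero_of_mul hi₀
  refine ⟨(r.coeff i₀)⁻¹, inv_ne_zero hr0, fun n => ?_, i₀, ?_⟩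
  · rw [normalize_coeff_C_mul]
    have := hall n
    rwa [mul_div_mul_left _ _ hc0, div_eq_inv_mul] at this
  · rw [normalize_coeff_C_mul, inv_mul_cancel₀ hr0, ValuationSubring.mem_nonunits_iff, map_one]
    exact lt_irrefl _

/-- (F1) every nonzero function is a constant times a quotient of two primitive integral
functions. -/
theorem exists_normalized (N : ℕ) {u : LaurentSeries Ω} (hu : u ∈ FF Ω N) (h0 : u ≠ 0) :
    ∃ (κ : Ω) (f g : LaurentSeries Ω), κ ≠ 0 ∧ f ∈ FF Ω N ∧ g ∈ FF Ω N ∧ IsPrim A f ∧ IsPrim A g ∧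
      u = HahnSeries.C κ * (f / g) := by
  obtain ⟨r, hr, s, hs, rfl⟩ := IntermediateField.mem_adjoin_iff_div.mp hu
  have hr0 : r ≠ 0 := by
    rintro rfl
    exact h0 (zero_div _)
  have hs0 : s ≠ 0 := by
    rintro rfl
    exact h0 (div_zero _)
  obtain ⟨a, ha0, ha⟩ := exists_isPrim_of_isTame A (isTame_of_mem_adjoin A N hr) hr0
  obtain ⟨b, hb0, hb⟩ := exists_isPrim_of_isTame A (isTame_of_mem_adjoin A N hs) hs0
  have hCa : (HahnSeries.C a : LaurentSeries Ω) ≠ 0 := by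
    rw [Ne, map_eq_zero]; exact ha0
  have hCb : (HahnSeries.C b : LaurentSeries Ω) ≠ 0 := by
    rw [Ne, map_eq_zero]; exact hb0
  refine ⟨b / a, HahnSeries.C a * r, HahnSeries.C b * s, div_ne_zero hb0 ha0,
    mul_mem (C_mem_FF a) (IntermediateField.algebra_adjoin_le_adjoin Ω _ hr),
    mul_mem (C_mem_FF b) (IntermediateField.algebra_adjoin_le_adjoin Ω _ hs), ha, hb, ?_⟩
  rw [map_div₀]
  field_simp

end Fermat.Agent.GR
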