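import Fermat.Agent.GR.Defs

/-!
# GR-F: elementary properties of `IsKummer` and `KummerEquiv`
-/

set_option autoImplicit false

noncomputable section

open ModularCurve AlgebraicCurve

namespace Fermat.Agent.GR

variable {K : Type*} [Field K] {N n : ℕ}

theorem kummer_C_eq_algebraMap (c : K) :
    (HahnSeries.C c : LaurentSeries K) = algebraMap K (LaurentSeries K) c := by
  rw [algebraMap_laurentSeries_eq_single]
  rfl

theorem C_mem_FF (c : K) : (HahnSeries.C c : LaurentSeries K) ∈ FF K N := by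
  rw [kummer_C_eq_algebraMap]
  exact (FF K N).algebraMap_mem c

theorem IsKummer.mem {u : LaurentSeries K} (hu : IsKummer (N := N) n u) : u ∈ FF K N :=
  hu.2.choose

theorem IsKummer.ne_zero {u : LaurentSeries K} (hu : IsKummer (N := N) n u) : u ≠ 0 := hu.1

theorem IsKummer.mul {u v : LaurentSeries K} (hu : IsKummer (N := N) n u)
    (hv : IsKummer (N := N) n v) : IsKummer (N := N) n (u * v) := by
  obtain ⟨hu0, hum, hu⟩ := hu
  obtain ⟨hv0, hvm, hv⟩ := hv
  refine ⟨mul_ne_zero hu0 hv0, mul_mem hum hvm, fun w => ?_⟩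
  have h : (⟨u * v, mul_mem hum hvm⟩ : FF K N) = ⟨u, hum⟩ * ⟨v, hvm⟩ := rfl
  rw [h, Place.ord_mul w (fun h => hu0 (congrArg Subtype.val h))
    (fun h => hv0 (congrArg Subtype.val h))]
  exact dvd_add (hu w) (hv w)

theorem IsKummer.inv {u : LaurentSeries K} (hu : IsKummer (N := N) n u) :
    IsKummer (N := N) n u⁻¹ := by
  obtain ⟨hu0, hum, hu⟩ := hu
  refine ⟨inv_ne_zero hu0, inv_mem hum, fun w => ?_⟩
  have h : (⟨u⁻¹, inv_mem hum⟩ : FF K N) = (⟨u, hum⟩ : FF K N)⁻¹ := rfl
  rw [h, Place.ord_inv]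
  exact (hu w).neg_right

theorem IsKummer.div {u v : LaurentSeries K} (hu : IsKummer (N := N) n u)
    (hv : IsKummer (N := N) n v) : IsKummer (N := N) n (u / v) := by
  rw [div_eq_mul_inv]
  exact hu.mul hv.inv

theorem kummer_isKummer_one : IsKummer (N := N) n (1 : LaurentSeries K) := by
  refine ⟨one_ne_zero, one_mem _, fun w => ?_⟩
  have h : (⟨1, one_mem _⟩ : FF K N) = 1 := rfl
  rw [h, Place.ord_one]
  exact dvd_zero _

theorem IsKummer.pow {u : LaurentSeries K} (hu : IsKummer (N := N) n u) (e : ℕ) :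
    IsKummer (N := N) n (u ^ e) := by
  induction e with
  | zero => rw [pow_zero]; exact kummer_isKummer_one
  | succ e ih => rw [pow_succ]; exact ih.mul hu

/-- nonzero constants have order `0` at every place. -/
theorem isKummer_C {c : K} (hc : c ≠ 0) :
    IsKummer (N := N) n (HahnSeries.C c : LaurentSeries K) := by
  have hinj : Function.Injective (algebraMap K (LaurentSeries K)) :=
    (algebraMap K (LaurentSeries K)).injective
  have hne : (HahnSeries.C c : LaurentSeries K) ≠ 0 := by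
    rw [kummer_C_eq_algebraMap]
    exact fun h => hc (hinj (by rw [h, map_zero]))
  refine ⟨hne, C_mem_FF c, fun w => ?_⟩
  have h : (⟨HahnSeries.C c, C_mem_FF c⟩ : FF K N) = algebraMap K (FF K N) c := by
    apply Subtype.ext
    show (HahnSeries.C c : LaurentSeries K) = algebraMap K (LaurentSeries K) c
    exact kummer_C_eq_algebraMap c
  have hu : IsUnit (algebraMap K w.toValuationSubring c) :=
    (isUnit_iff_ne_zero.mpr hc).map (algebraMap K w.toValuationSubring)
  have h2 : algebraMap K (FF K N) c = ((hu.unit : (w.toValuationSubring)ˣ) : w.toValuationSubring) := by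
    rw [IsUnit.unit_spec, Place.coe_algebraMap]
  rw [h, h2, Place.ord_coe_unit]
  exact dvd_zero _

theorem isKummer_pow_self {z : LaurentSeries K} (hz : z ∈ FF K N) (hz0 : z ≠ 0) :
    IsKummer (N := N) n (z ^ n) := by
  refine ⟨pow_ne_zero _ hz0, pow_mem hz n, fun w => ?_⟩
  have h : (⟨z ^ n, pow_mem hz n⟩ : FF K N) = (⟨z, hz⟩ : FF K N) ^ (n : ℤ) := by
    rw [zpow_natCast]; rfl
  rw [h, Place.ord_zpow]
  exact dvd_mul_right _ _

theorem KummerEquiv.refl (u : LaurentSeries K) : KummerEquiv N n u u :=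
  ⟨1, one_mem _, one_ne_zero, by simp⟩

theorem KummerEquiv.symm {u v : LaurentSeries K} (h : KummerEquiv N n u v) :
    KummerEquiv N n v u := by
  obtain ⟨z, hz, hz0, rfl⟩ := h
  refine ⟨z⁻¹, inv_mem hz, inv_ne_zero hz0, ?_⟩
  rw [mul_assoc, ← mul_pow, mul_inv_cancel₀ hz0, one_pow, mul_one]

theorem KummerEquiv.trans {u v w : LaurentSeries K} (h : KummerEquiv N n u v)
    (h' : KummerEquiv N n v w) : KummerEquiv N n u w := by
  obtain ⟨z, hz, hz0, rfl⟩ := h
  obtain ⟨z', hz', hz0', rfl⟩ := h'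
  exact ⟨z * z', mul_mem hz hz', mul_ne_zero hz0 hz0', by rw [mul_pow, mul_assoc]⟩

theorem KummerEquiv.mul {u v u' v' : LaurentSeries K} (h : KummerEquiv N n u v)
    (h' : KummerEquiv N n u' v') : KummerEquiv N n (u * u') (v * v') := by
  obtain ⟨z, hz, hz0, rfl⟩ := h
  obtain ⟨z', hz', hz0', rfl⟩ := h'
  exact ⟨z * z', mul_mem hz hz', mul_ne_zero hz0 hz0', by rw [mul_pow]; ring⟩

/-- over an algebraically closed field constants are `n`-th powers. -/
theorem kummerEquiv_C_mul [IsAlgClosed K] (hn : 0 < n) {c : K} (hc : c ≠ 0)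
    (u : LaurentSeries K) : KummerEquiv N n u (HahnSeries.C c * u) := by
  obtain ⟨d, hd⟩ := IsAlgClosed.exists_pow_nat_eq c hn
  have hd0 : d ≠ 0 := by
    rintro rfl
    rw [zero_pow hn.ne'] at hd
    exact hc hd.symm
  refine ⟨HahnSeries.C d, C_mem_FF d, (isKummer_C (N := N) (n := n) hd0).ne_zero, ?_⟩
  rw [← map_pow, hd, mul_comm]

/-- (C1) coefficientwise field automorphisms preserve the function field. -/
theorem coeffMap_mem_FF (σ : K →+* K) {u : LaurentSeries K} (hu : u ∈ FF K N) :
    coeffMap σ u ∈ FF K N := by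
  have hu' : u ∈ Subfield.closure
      (Set.range (algebraMap K (LaurentSeries K)) ∪ divisorExpansionsC K N) := hu
  clear hu
  induction hu' using Subfield.closure_induction with
  | mem y hy =>
      rcases hy with ⟨a, rfl⟩ | ⟨d, hd, hdN, rfl⟩
      · rw [coeffMap_algebraMap]
        exact (FF K N).algebraMap_mem _
      · rw [coeffMap_qExpand, coeffMap_jqModC]
        exact IntermediateField.subset_adjoin K _ ⟨d, hd, hdN, rfl⟩
  | one => rw [map_one]; exact one_mem _
  | add x y _ _ hx hy => rw [map_add]; exact add_mem hx hy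
  | neg x _ hx => rw [map_neg]; exact neg_mem hx
  | inv x _ hx => rw [map_inv₀]; exact inv_mem hx
  | mul x y _ _ hx hy => rw [map_mul]; exact mul_mem hx hy

end Fermat.Agent.GR
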