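import Fermat.Agent.GR.Defs

/-!
# GR-F: formal properties of `scaleHom`, `Uop`, `normT`, `heckeMulT`
-/

set_option autoImplicit false

noncomputable section

open ModularCurve

namespace Fermat.Agent.GR

section ring

variable {Λ Λ' : Type*} [CommRing Λ] [CommRing Λ']

theorem scaleHom_one (f : LaurentSeries Λ) : scaleHom (1 : Λˣ) f = f := by
  ext n
  simp

theorem scaleHom_scaleHom (c c' : Λˣ) (f : LaurentSeries Λ) :
    scaleHom c (scaleHom c' f) = scaleHom (c * c') f := by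
  ext n
  simp only [scaleHom_coeff, mul_zpow, Units.val_mul]
  ring

theorem scaleHom_C (c : Λˣ) (a : Λ) :
    scaleHom c (HahnSeries.C a : LaurentSeries Λ) = HahnSeries.C a := by
  ext n
  simp only [scaleHom_coeff, HahnSeries.C_apply, HahnSeries.coeff_single]
  split_ifs with h
  · subst h; simp
  · simp

theorem coeffMap_scaleHom (φ : Λ →+* Λ') (c : Λˣ) (f : LaurentSeries Λ) :
    coeffMap φ (scaleHom c f) = scaleHom (Units.map (φ : Λ →* Λ') c) (coeffMap φ f) := by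
  ext n
  simp only [coeffMap_coeff, scaleHom_coeff, map_mul, ← map_zpow]
  rfl

theorem coeffMap_Uop (φ : Λ →+* Λ') (ℓ : ℕ) [NeZero ℓ] (f : LaurentSeries Λ) :
    coeffMap φ (Uop ℓ f) = Uop ℓ (coeffMap φ f) := by
  ext n
  simp only [coeffMap_coeff, Uop_coeff]

theorem Uop_qExpand (ℓ : ℕ) [NeZero ℓ] (f : LaurentSeries Λ) : Uop ℓ (qExpand Λ ℓ f) = f := by
  ext n
  rw [Uop_coeff, qExpand_coeff_mul]

theorem qExpand_Uop (ℓ : ℕ) [NeZero ℓ] (g : LaurentSeries Λ)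
    (hg : ∀ n : ℤ, ¬ (ℓ : ℤ) ∣ n → g.coeff n = 0) : qExpand Λ ℓ (Uop ℓ g) = g := by
  ext n
  by_cases hn : (ℓ : ℤ) ∣ n
  · obtain ⟨k, rfl⟩ := hn
    rw [qExpand_coeff_mul, Uop_coeff]
  · rw [qExpand_coeff_of_not_dvd ℓ _ hn, hg n hn]

/-- naturality of `normT` (no hypothesis on `ζ`). -/
theorem coeffMap_normT (φ : Λ →+* Λ') (ℓ : ℕ) [NeZero ℓ] (ζ : Λˣ) (u : LaurentSeries Λ) :
    coeffMap φ (normT ℓ ζ u) = normT ℓ (Units.map (φ : Λ →* Λ') ζ) (coeffMap φ u) := by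
  unfold normT
  rw [coeffMap_Uop, map_prod]
  congr 1
  refine Finset.prod_congr rfl fun j _ => ?_
  rw [coeffMap_scaleHom, map_pow]

theorem coeffMap_heckeMulT (φ : Λ →+* Λ') (ℓ : ℕ) [NeZero ℓ] (ζ : Λˣ) (u : LaurentSeries Λ) :
    coeffMap φ (heckeMulT ℓ ζ u) = heckeMulT ℓ (Units.map (φ : Λ →* Λ') ζ) (coeffMap φ u) := by
  unfold heckeMulT
  rw [map_mul, coeffMap_normT, coeffMap_qExpand]

theorem normT_one_eq (ℓ : ℕ) [NeZero ℓ] (u : LaurentSeries Λ) :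
    normT ℓ (1 : Λˣ) u = Uop ℓ (u ^ ℓ) := by
  unfold normT
  simp [scaleHom_one]

theorem normT_C (ℓ : ℕ) [NeZero ℓ] (ζ : Λˣ) (a : Λ) :
    normT ℓ ζ (HahnSeries.C a : LaurentSeries Λ) = HahnSeries.C (a ^ ℓ) := by
  unfold normT
  simp only [scaleHom_C, Finset.prod_const, Finset.card_range, ← map_pow]
  ext n
  by_cases hn : n = 0
  · simp [hn]
  · simp [hn, NeZero.ne ℓ]

theorem heckeMulT_C (ℓ : ℕ) [NeZero ℓ] (ζ : Λˣ) (a : Λ) :
    heckeMulT ℓ ζ (HahnSeries.C a : LaurentSeries Λ) = HahnSeries.C (a ^ (ℓ + 1)) := by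
  unfold heckeMulT
  rw [normT_C, qExpand_C, ← map_mul, pow_succ, mul_comm]

end ring

end Fermat.Agent.GR
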