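import Fermat.Agent.GR.F.Red

/-!
# GR-F: the decomposition group acting on `A((q))` and its reduction
-/

set_option autoImplicit false

noncomputable section

open ModularCurve IsLocalRing

namespace Fermat.Agent.GR

section galois

variable {K Ω : Type*} [Field K] [Field Ω] [Algebra K Ω] (A : ValuationSubring Ω)

/-- the action of an element of the decomposition group on `A`. -/
def actA (σ : A.decompositionSubgroup K) : ↥A →+* ↥A :=
  MulSemiringAction.toRingHom (A.decompositionSubgroup K) ↥A σ

theorem incl_coeffMap_actA (σ : A.decompositionSubgroup K) (f : LaurentSeries A) :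
    incl A (coeffMap (actA A σ) f) = gal (σ : Ω ≃ₐ[K] Ω) (incl A f) := by
  ext n
  rfl

theorem coeffMap_actA_actA_inv (σ : A.decompositionSubgroup K) (f : LaurentSeries A) :
    coeffMap (actA A σ) (coeffMap (actA A σ⁻¹) f) = f := by
  ext n
  simp only [coeffMap_coeff, actA, MulSemiringAction.toRingHom_apply, smul_inv_smul]

theorem red_actA_of_mem_inertia (σ : A.decompositionSubgroup K) (hσ : σ ∈ A.inertiaSubgroup K)
    (f : LaurentSeries A) : red A (coeffMap (actA A σ) f) = red A f := by
  ext n
  have h1 : MulSemiringAction.toRingAut (A.decompositionSubgroup K) (ResidueField A) σ = 1 := hσ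
  have h2 : σ • residue A (f.coeff n) = residue A (f.coeff n) :=
    RingEquiv.congr_fun h1 (residue A (f.coeff n))
  rw [← IsLocalRing.ResidueField.residue_smul] at h2
  exact h2

theorem red_actA_of_isFrobeniusAt {ℓ : ℕ} [Fact ℓ.Prime] [CharP (ResidueField A) ℓ]
    (σ : Ω ≃ₐ[K] Ω) (h : A.IsFrobeniusAt σ ℓ) (f : LaurentSeries A) :
    red A (coeffMap (actA A ⟨σ, h.mem_decompositionSubgroup⟩) f) =
      coeffMap (frobenius (ResidueField A) ℓ) (red A f) := by
  ext n
  have h2 := h.smul_residue_eq (residue A (f.coeff n))
  rw [← IsLocalRing.ResidueField.residue_smul] at h2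
  exact h2

end galois

end Fermat.Agent.GR
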