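import Fermat.Agent.GR.F.FormalNorm
import Fermat.Agent.GR.F.Frob
import Fermat.Agent.GR.F.RedGal
import Fermat.Agent.GR.F.Normalize

/-!
# GR-F: unramifiedness and the Eichler-Shimura relation on Kummer classes

Inputs (as hypotheses): the crux lemma of GR-E (`CruxAt`), Galois stability of Kummer functions
(GR-C, `GalStable`) and Hecke stability (GR-B, `HeckeStable`).
-/

set_option autoImplicit false

noncomputable section

open ModularCurve IsLocalRing

namespace Fermat.Agent.GR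

/-- `ℚ̄`. -/
abbrev Qbar : Type := AlgebraicClosure ℚ

instance isAlgebraic_Qbar : Algebra.IsAlgebraic ℚ Qbar := by
  have h : (DivisionRing.toRatAlgebra : Algebra ℚ Qbar) = AlgebraicClosure.instAlgebra ℚ :=
    Subsingleton.elim _ _
  rw [h]
  infer_instance

/-- (input from GR-E) the crux lemma at the place `A`, in fraction form. -/
def CruxAt (N n : ℕ) (A : ValuationSubring Qbar) : Prop :=
  ∀ a b : LaurentSeries Qbar, a ∈ FF Qbar N → b ∈ FF Qbar N → IsPrim A a → IsInt A b →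
    Cong A a b → IsKummer (N := N) n (a / b) → KummerEquiv N n b a

/-- (input from GR-C) Galois conjugates of Kummer functions are Kummer functions. -/
def GalStable (N n : ℕ) : Prop :=
  ∀ (σ : Qbar ≃ₐ[ℚ] Qbar) (u : LaurentSeries Qbar),
    IsKummer (N := N) n u → IsKummer (N := N) n (gal σ u)

/-- (input from GR-B) the multiplicative Hecke operator preserves the function field and
Kummer functions. -/
def HeckeStable (N n ℓ : ℕ) [NeZero ℓ] (ζ : Qbarˣ) : Prop :=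
  (∀ u : LaurentSeries Qbar, u ∈ FF Qbar N → heckeMulT ℓ ζ u ∈ FF Qbar N) ∧
    ∀ u : LaurentSeries Qbar, IsKummer (N := N) n u → IsKummer (N := N) n (heckeMulT ℓ ζ u)

variable {N n : ℕ} (A : ValuationSubring Qbar)

/-- abstract principle: two multiplicative operators which are congruent modulo `𝔪_A` on integral
series agree on Kummer classes. -/
theorem kummerEquiv_of_cong (hn : 0 < n) (hcrux : CruxAt N n A)
    (Φ Ψ : LaurentSeries Qbar →*₀ LaurentSeries Qbar)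
    (hΦF : ∀ u ∈ FF Qbar N, Φ u ∈ FF Qbar N) (hΨF : ∀ u ∈ FF Qbar N, Ψ u ∈ FF Qbar N)
    (hΦK : ∀ u, IsKummer (N := N) n u → IsKummer (N := N) n (Φ u))
    (hΨK : ∀ u, IsKummer (N := N) n u → IsKummer (N := N) n (Ψ u))
    (hΦC : ∀ c : Qbar, c ≠ 0 → ∃ c' : Qbar, c' ≠ 0 ∧ Φ (HahnSeries.C c) = HahnSeries.C c')
    (hΨC : ∀ c : Qbar, c ≠ 0 → ∃ c' : Qbar, c' ≠ 0 ∧ Ψ (HahnSeries.C c) = HahnSeries.C c')
    (hcong : ∀ f : LaurentSeries A, red A f ≠ 0 → ∃ a b : LaurentSeries A,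
      incl A a = Φ (incl A f) ∧ incl A b = Ψ (incl A f) ∧ red A a = red A b ∧ red A a ≠ 0)
    {u : LaurentSeries Qbar} (hu : IsKummer (N := N) n u) :
    KummerEquiv N n (Ψ u) (Φ u) := by
  obtain ⟨κ, F, G, hκ, hFF, hGF, hF, hG, hu_eq⟩ := exists_normalized A N hu.mem hu.ne_zero
  obtain ⟨f, rfl, hf⟩ := (isPrim_iff A).mp hF
  obtain ⟨g, rfl, hg⟩ := (isPrim_iff A).mp hG
  obtain ⟨af, bf, haf, hbf, hredf, hredf0⟩ := hcong f hf
  obtain ⟨ag, bg, hag, hbg, hredg, hredg0⟩ := hcong g hg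
  obtain ⟨c₁, hc₁, hΦκ⟩ := hΦC κ hκ
  obtain ⟨c₂, hc₂, hΨκ⟩ := hΨC κ hκ
  have hinj := incl_injective A
  have hne : ∀ x : LaurentSeries A, red A x ≠ 0 → incl A x ≠ 0 := by
    intro x hx h0
    apply hx
    rw [show x = 0 from hinj (by rw [h0, map_zero]), map_zero]
  have hbf0 : red A bf ≠ 0 := hredf ▸ hredf0
  have hbg0 : red A bg ≠ 0 := hredg ▸ hredg0
  have hC₁ : (HahnSeries.C c₁ : LaurentSeries Qbar) ≠ 0 := by
    simpa using hc₁
  have hC₂ : (HahnSeries.C c₂ : LaurentSeries Qbar) ≠ 0 := by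
    simpa using hc₂
  -- the two integral functions
  have hΦu : Φ u = HahnSeries.C c₁ * (incl A af / incl A ag) := by
    rw [hu_eq, map_mul, map_div₀, hΦκ, haf, hag]
  have hΨu : Ψ u = HahnSeries.C c₂ * (incl A bf / incl A bg) := by
    rw [hu_eq, map_mul, map_div₀, hΨκ, hbf, hbg]
  have hquot : incl A (af * bg) / incl A (bf * ag) =
      Φ u / Ψ u * HahnSeries.C (c₂ / c₁) := by
    rw [hΦu, hΨu, map_mul, map_mul, map_div₀]
    have h1 := hne af hredf0
    have h2 := hne ag hredg0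
    have h3 := hne bf hbf0
    have h4 := hne bg hbg0
    field_simp
  have hK : IsKummer (N := N) n (incl A (af * bg) / incl A (bf * ag)) := by
    rw [hquot]
    exact ((hΦK u hu).div (hΨK u hu)).mul (isKummer_C (div_ne_zero hc₂ hc₁))
  have hz := hcrux (incl A (af * bg)) (incl A (bf * ag))
    (by rw [map_mul, haf, hbg]; exact mul_mem (hΦF _ hFF) (hΨF _ hGF))
    (by rw [map_mul, hbf, hag]; exact mul_mem (hΨF _ hFF) (hΦF _ hGF))
    ((isPrim_incl_iff A _).mpr (by rw [map_mul]; exact mul_ne_zero hredf0 hbg0))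
    ((isInt_iff A).mpr ⟨_, rfl⟩)
    ((cong_incl_iff A _ _).mpr (by rw [map_mul, map_mul, hredf, hredg]))
    hK
  obtain ⟨z, hzF, hz0, hzeq⟩ := hz
  have hfin : Φ u = HahnSeries.C (c₁ / c₂) * (Ψ u * z ^ n) := by
    rw [hΦu, hΨu, map_div₀]
    rw [map_mul, map_mul] at hzeq
    have h1 := hne af hredf0
    have h2 := hne ag hredg0
    have h3 := hne bf hbf0
    have h4 := hne bg hbg0
    field_simp
    linear_combination hzeq
  rw [hfin]
  exact (KummerEquiv.trans ⟨z, hzF, hz0, rfl⟩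
    (kummerEquiv_C_mul hn (div_ne_zero hc₁ hc₂) _))

theorem gal_C (σ : Qbar ≃ₐ[ℚ] Qbar) (c : Qbar) :
    gal σ (HahnSeries.C c : LaurentSeries Qbar) = HahnSeries.C (σ c) := by
  exact coeffMap_single _ 0 c

/-- (F-unr) inertia at `A` acts trivially on Kummer classes. -/
theorem kummerEquiv_gal_of_mem_inertia (hn : 0 < n) (hcrux : CruxAt N n A)
    (hgal : GalStable N n) {σ : Qbar ≃ₐ[ℚ] Qbar} (hσ : σ ∈ A.inertiaSubgroupIn ℚ)
    {u : LaurentSeries Qbar} (hu : IsKummer (N := N) n u) :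
    KummerEquiv N n u (gal σ u) := by
  obtain ⟨τ, hτ, rfl⟩ := hσ
  exact kummerEquiv_of_cong A hn hcrux
    (gal ((A.decompositionSubgroup ℚ).subtype τ)).toMonoidWithZeroHom (MonoidWithZeroHom.id _)
    (fun u hu => coeffMap_mem_FF _ hu) (fun u hu => hu)
    (fun u hu => hgal _ u hu) (fun u hu => hu)
    (fun c hc => ⟨_, (map_ne_zero _).mpr hc, gal_C _ c⟩) (fun c hc => ⟨c, hc, rfl⟩)
    (fun f hf => ⟨coeffMap (actA A τ) f, f, incl_coeffMap_actA A τ f, rfl,
      red_actA_of_mem_inertia A τ hτ f, by rw [red_actA_of_mem_inertia A τ hτ f]; exact hf⟩)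
    hu

/-- the multiplicative Hecke operator as a homomorphism. -/
def heckeMulTHom (ℓ : ℕ) [NeZero ℓ] (ζ : Qbarˣ) (hζ : IsPrimitiveRoot ζ ℓ) :
    LaurentSeries Qbar →*₀ LaurentSeries Qbar where
  toFun := heckeMulT ℓ ζ
  map_zero' := by simp [heckeMulT]
  map_one' := by
    have h := heckeMulT_C ℓ ζ (1 : Qbar)
    simpa using h
  map_mul' := heckeMulT_mul ℓ ζ hζ

/-- `u ↦ σ(u) σ⁻¹(u)^ℓ` as a homomorphism. -/
def frobSumHom (ℓ : ℕ) (σ : Qbar ≃ₐ[ℚ] Qbar) : LaurentSeries Qbar →*₀ LaurentSeries Qbar where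
  toFun u := gal σ u * gal σ⁻¹ u ^ ℓ
  map_zero' := by simp
  map_one' := by simp
  map_mul' u v := by
    simp only [map_mul]
    ring

/-- (F-ES) the Eichler-Shimura relation `T_ℓ = σ + ℓ σ⁻¹` on Kummer classes, for `σ` a Frobenius
element at `A`. -/
theorem kummerEquiv_heckeMulT_of_isFrobeniusAt {ℓ : ℕ} [Fact ℓ.Prime] (hn : 0 < n)
    (hA : A.LiesOverPrime ℓ) (hcrux : CruxAt N n A) (hgal : GalStable N n)
    (ζ : Qbarˣ) (hζ : IsPrimitiveRoot ζ ℓ) (hhecke : HeckeStable N n ℓ ζ)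
    {σ : Qbar ≃ₐ[ℚ] Qbar} (hσ : A.IsFrobeniusAt σ ℓ)
    {u : LaurentSeries Qbar} (hu : IsKummer (N := N) n u) :
    KummerEquiv N n (gal σ u * gal σ⁻¹ u ^ ℓ) (heckeMulT ℓ ζ u) := by
  have := charP_residueField A hA
  obtain ⟨z, hz, hz1⟩ := exists_unit_of_pow_eq_one A hA ζ hζ.pow_eq_one
  set τ : A.decompositionSubgroup ℚ := ⟨σ, hσ.mem_decompositionSubgroup⟩ with hτ
  have hfrobinj : Function.Injective
      (coeffMap (frobenius (ResidueField A) ℓ)) := by
    intro x y hxy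
    ext k
    have := congrArg (fun s => s.coeff k) hxy
    exact (frobenius (ResidueField A) ℓ).injective this
  refine kummerEquiv_of_cong A hn hcrux (heckeMulTHom ℓ ζ hζ) (frobSumHom ℓ σ)
    hhecke.1 (fun u hu => mul_mem (coeffMap_mem_FF _ hu) (pow_mem (coeffMap_mem_FF _ hu) _))
    hhecke.2 (fun u hu => (hgal _ u hu).mul ((hgal _ u hu).pow _))
    (fun c hc => ⟨_, pow_ne_zero _ hc, heckeMulT_C ℓ ζ c⟩)
    (fun c hc => ⟨σ c * σ⁻¹ c ^ ℓ,
      mul_ne_zero ((map_ne_zero _).mpr hc) (pow_ne_zero _ ((map_ne_zero _).mpr hc)), ?_⟩)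
    (fun f hf => ⟨heckeMulT ℓ z f, coeffMap (actA A τ) f * coeffMap (actA A τ⁻¹) f ^ ℓ,
      ?_, ?_, ?_, ?_⟩) hu
  · show gal σ _ * gal σ⁻¹ _ ^ ℓ = _
    rw [gal_C, gal_C, map_mul, map_pow]
  · show incl A (heckeMulT ℓ z f) = heckeMulT ℓ ζ (incl A f)
    rw [incl, coeffMap_heckeMulT, hz]
  · show _ = gal σ (incl A f) * gal σ⁻¹ (incl A f) ^ ℓ
    rw [map_mul, map_pow, incl_coeffMap_actA, incl_coeffMap_actA]
    rfl
  · have h1 : red A (heckeMulT ℓ z f) =
        qExpand _ ℓ (red A f) * coeffMap (frobenius (ResidueField A) ℓ) (red A f) := by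
      rw [red, coeffMap_heckeMulT, hz1, heckeMulT, normT_one_char]
    have h2 : red A (coeffMap (actA A τ⁻¹) f) ^ ℓ = qExpand _ ℓ (red A f) := by
      rw [pow_char_eq_qExpand, ← red_actA_of_isFrobeniusAt A σ hσ, coeffMap_actA_actA_inv]
    rw [h1, map_mul, map_pow, h2, red_actA_of_isFrobeniusAt A σ hσ, mul_comm]
  · have h1 : red A (heckeMulT ℓ z f) =
        qExpand _ ℓ (red A f) * coeffMap (frobenius (ResidueField A) ℓ) (red A f) := by
      rw [red, coeffMap_heckeMulT, hz1, heckeMulT, normT_one_char]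
    rw [h1]
    refine mul_ne_zero ?_ ?_
    · exact fun h => hf (qExpand_injective ℓ (by rw [h, map_zero]))
    · exact fun h => hf (hfrobinj (by rw [h, map_zero]))

end Fermat.Agent.GR
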